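import Mathlib

/-!
# Two-chart modules on the projective line over a ring `A` (programme JAC, brick A1)

A "glue datum" consists of a module `E0` over `A[X]` (chart `t`), a module `E1` over `A[X]`
(chart `s = 1/t`), a module `E01` over `A[T;T⁻¹]` and additive maps `ρ0 : E0 → E01`,
`ρ1 : E1 → E01`, semilinear for `X ↦ T` resp. `X ↦ T⁻¹`, which are localisation maps
(injective, and every element of `E01` is in the image after multiplying by a power of `T`,
resp. `T⁻¹`).  `H0` is the kernel of `E0 × E1 → E01`, `H1` the cokernel (both `A`-modules).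

Main results of this file:
* `Glue.twist` : the twist `E(m)`;
* `Glue.eq_top_of_forall_T_smul_mem` : closure lemma;
* `Glue.exists_fg_sup_eq_top`, `Glue.finite_H1` : `H1` is a finite `A`-module if `E0` is finite
  over `A[X]`;
* `Glue.exists_twist_im_eq_top` : `H1 (E(m)) = 0` for `m ≥ m₀`.
-/

set_option linter.unusedSectionVars false

noncomputable section

namespace Fermat.Agent.Jac.P1Coh.Basic

open Polynomial LaurentPolynomial

universe u v₀ v₁ v₂

variable (A : Type u) [CommRing A]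
variable (E0 : Type v₀) (E1 : Type v₁) (E01 : Type v₂)
variable [AddCommGroup E0] [Module A[X] E0] [AddCommGroup E1] [Module A[X] E1]
variable [AddCommGroup E01] [Module A[T;T⁻¹] E01]

/-- Glue datum of a two-chart module on `P^1_A`. -/
structure Glue where
  /-- restriction from the chart `t` -/
  ρ0 : E0 →+ E01
  /-- restriction from the chart `s = 1/t` -/
  ρ1 : E1 →+ E01
  map_smul0 : ∀ (p : A[X]) (x : E0), ρ0 (p • x) = (toLaurent p) • ρ0 x
  map_smul1 : ∀ (p : A[X]) (x : E1), ρ1 (p • x) = (invert (toLaurent p)) • ρ1 x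
  inj0 : Function.Injective ρ0
  inj1 : Function.Injective ρ1
  surj0 : ∀ z : E01, ∃ (n : ℕ) (x : E0), (T (n : ℤ) : A[T;T⁻¹]) • z = ρ0 x
  surj1 : ∀ z : E01, ∃ (n : ℕ) (x : E1), (T (-(n : ℤ)) : A[T;T⁻¹]) • z = ρ1 x

variable {A E0 E1 E01}

namespace Glue

variable (g : Glue A E0 E1 E01)

lemma T_smul_T_smul (m n : ℤ) (z : E01) :
    (T m : A[T;T⁻¹]) • (T n : A[T;T⁻¹]) • z = (T (m + n) : A[T;T⁻¹]) • z := by
  rw [smul_smul, ← T_add]

lemma T_neg_smul_T_smul (m : ℤ) (z : E01) :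
    (T (-m) : A[T;T⁻¹]) • (T m : A[T;T⁻¹]) • z = z := by
  rw [T_smul_T_smul, neg_add_cancel, T_zero, one_smul]

lemma T_smul_T_neg_smul (m : ℤ) (z : E01) :
    (T m : A[T;T⁻¹]) • (T (-m) : A[T;T⁻¹]) • z = z := by
  rw [T_smul_T_smul, add_neg_cancel, T_zero, one_smul]

lemma T_smul_injective (m : ℤ) :
    Function.Injective (fun z : E01 => (T m : A[T;T⁻¹]) • z) := by
  intro z w h
  have := congrArg (fun y => (T (-m) : A[T;T⁻¹]) • y) h
  simpa [T_neg_smul_T_smul] using this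

lemma ρ0_X_pow_smul (n : ℕ) (x : E0) :
    g.ρ0 ((X : A[X]) ^ n • x) = (T (n : ℤ) : A[T;T⁻¹]) • g.ρ0 x := by
  rw [g.map_smul0, toLaurent_X_pow]

lemma ρ1_X_pow_smul (n : ℕ) (x : E1) :
    g.ρ1 ((X : A[X]) ^ n • x) = (T (-(n : ℤ)) : A[T;T⁻¹]) • g.ρ1 x := by
  rw [g.map_smul1, toLaurent_X_pow, invert_T]

/-- The twist `E(m)`: the chart at infinity is glued via `T^m • ρ1`. -/
def twist (m : ℤ) : Glue A E0 E1 E01 where
  ρ0 := g.ρ0
  ρ1 := (DistribSMul.toAddMonoidHom E01 (T m : A[T;T⁻¹])).comp g.ρ1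
  map_smul0 := g.map_smul0
  map_smul1 p x := by
    simp only [AddMonoidHom.coe_comp, Function.comp_apply,
      DistribSMul.toAddMonoidHom_apply, g.map_smul1]
    rw [smul_comm]
  inj0 := g.inj0
  inj1 := by
    intro x y h
    simp only [AddMonoidHom.coe_comp, Function.comp_apply,
      DistribSMul.toAddMonoidHom_apply] at h
    exact g.inj1 (T_smul_injective m h)
  surj0 := g.surj0
  surj1 z := by
    obtain ⟨n, x, hx⟩ := g.surj1 ((T (-m) : A[T;T⁻¹]) • z)
    refine ⟨n, x, ?_⟩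
    simp only [AddMonoidHom.coe_comp, Function.comp_apply,
      DistribSMul.toAddMonoidHom_apply, ← hx]
    rw [smul_comm (T (-(n : ℤ)) : A[T;T⁻¹]), T_smul_T_neg_smul]

@[simp] lemma twist_ρ0 (m : ℤ) : (g.twist m).ρ0 = g.ρ0 := rfl

@[simp] lemma twist_ρ1_apply (m : ℤ) (x : E1) :
    (g.twist m).ρ1 x = (T m : A[T;T⁻¹]) • g.ρ1 x := rfl

section AModule

variable [Module A E0] [IsScalarTower A A[X] E0] [Module A E1] [IsScalarTower A A[X] E1]
variable [Module A E01] [IsScalarTower A A[T;T⁻¹] E01]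

lemma ρ0_smul (a : A) (x : E0) : g.ρ0 (a • x) = a • g.ρ0 x := by
  rw [← algebraMap_smul A[X] a x, g.map_smul0, ← algebraMap_smul A[T;T⁻¹] a (g.ρ0 x)]
  congr 1
  rw [Polynomial.algebraMap_apply, Algebra.algebraMap_self_apply, toLaurent_C,
    LaurentPolynomial.C_eq_algebraMap]

lemma ρ1_smul (a : A) (x : E1) : g.ρ1 (a • x) = a • g.ρ1 x := by
  rw [← algebraMap_smul A[X] a x, g.map_smul1, ← algebraMap_smul A[T;T⁻¹] a (g.ρ1 x)]
  congr 1
  rw [Polynomial.algebraMap_apply, Algebra.algebraMap_self_apply, toLaurent_C, invert_C,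
    LaurentPolynomial.C_eq_algebraMap]

/-- `ρ0` as an `A`-linear map. -/
def ρ0A : E0 →ₗ[A] E01 where
  toFun := g.ρ0
  map_add' := g.ρ0.map_add
  map_smul' a x := g.ρ0_smul a x

/-- `ρ1` as an `A`-linear map. -/
def ρ1A : E1 →ₗ[A] E01 where
  toFun := g.ρ1
  map_add' := g.ρ1.map_add
  map_smul' a x := g.ρ1_smul a x

@[simp] lemma ρ0A_apply (x : E0) : g.ρ0A x = g.ρ0 x := rfl
@[simp] lemma ρ1A_apply (x : E1) : g.ρ1A x = g.ρ1 x := rfl

/-- The `A`-submodule `ρ0 E0 + ρ1 E1` of `E01`. -/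
def im : Submodule A E01 := LinearMap.range g.ρ0A ⊔ LinearMap.range g.ρ1A

/-- `H^1` of the glue datum. -/
abbrev H1 : Type v₂ := E01 ⧸ g.im

/-- `H^0` of the glue datum, as a submodule of `E0 × E1`. -/
def H0 : Submodule A (E0 × E1) :=
  LinearMap.ker (g.ρ0A.comp (LinearMap.fst A E0 E1) - g.ρ1A.comp (LinearMap.snd A E0 E1))

lemma mem_H0 (p : E0 × E1) : p ∈ g.H0 ↔ g.ρ0 p.1 = g.ρ1 p.2 := by
  simp [H0, sub_eq_zero]

lemma ρ0_mem_im (x : E0) : g.ρ0 x ∈ g.im :=
  Submodule.mem_sup_left ⟨x, rfl⟩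

lemma ρ1_mem_im (x : E1) : g.ρ1 x ∈ g.im :=
  Submodule.mem_sup_right ⟨x, rfl⟩

lemma T_smul_ρ0_mem_im (n : ℕ) (x : E0) : (T (n : ℤ) : A[T;T⁻¹]) • g.ρ0 x ∈ g.im := by
  rw [← g.ρ0_X_pow_smul]; exact g.ρ0_mem_im _

lemma T_neg_smul_ρ1_mem_im (n : ℕ) (x : E1) :
    (T (-(n : ℤ)) : A[T;T⁻¹]) • g.ρ1 x ∈ g.im := by
  rw [← g.ρ1_X_pow_smul]; exact g.ρ1_mem_im _

lemma T_smul_comm_smul (k : ℤ) (a : A) (z : E01) :
    (T k : A[T;T⁻¹]) • a • z = a • (T k : A[T;T⁻¹]) • z := by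
  rw [← algebraMap_smul A[T;T⁻¹] a z, ← algebraMap_smul A[T;T⁻¹] a ((T k : A[T;T⁻¹]) • z),
    smul_comm]

/-- Closure lemma: an `A`-submodule `W` of `E01` containing all `T^k • ρ0 e`, `k : ℤ`, for `e` in a
generating set of the `A[X]`-module `E0`, is everything. -/
theorem eq_top_of_forall_T_smul_mem (W : Submodule A E01) (S : Set E0)
    (hS : Submodule.span A[X] S = ⊤)
    (h : ∀ e ∈ S, ∀ k : ℤ, (T k : A[T;T⁻¹]) • g.ρ0 e ∈ W) : W = ⊤ := by
  -- the set of `x` all of whose `T`-translates lie in `W` is an `A[X]`-submodule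
  let N : Submodule A[X] E0 :=
    { carrier := {x | ∀ k : ℤ, (T k : A[T;T⁻¹]) • g.ρ0 x ∈ W}
      add_mem' := by
        intro x y hx hy k
        simp only [Set.mem_ofPred_eq] at hx hy ⊢
        rw [map_add, smul_add]
        exact W.add_mem (hx k) (hy k)
      zero_mem' := by
        intro k
        simp
      smul_mem' := by
        intro p x hx
        simp only [Set.mem_ofPred_eq] at hx ⊢
        induction p using Polynomial.induction_on' with
        | add p q hp hq =>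
          intro k
          rw [add_smul, map_add, smul_add]
          exact W.add_mem (hp k) (hq k)
        | monomial n a =>
          intro k
          rw [g.map_smul0, ← C_mul_X_pow_eq_monomial, map_mul, toLaurent_C, toLaurent_X_pow,
            mul_smul, LaurentPolynomial.C_eq_algebraMap, algebraMap_smul, T_smul_comm_smul,
            T_smul_T_smul]
          exact W.smul_mem a (hx _) }
  have hN : N = ⊤ := by
    rw [eq_top_iff, ← hS, Submodule.span_le]
    intro e he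
    exact h e he
  rw [eq_top_iff]
  intro z _
  obtain ⟨n, x, hx⟩ := g.surj0 z
  have hxN : x ∈ N := hN ▸ Submodule.mem_top
  have := hxN (-(n : ℤ))
  rwa [← hx, T_neg_smul_T_smul] at this

/-- For a finite subset of `E0` there is a uniform bound `b` such that `T^{-i} • ρ0 e` lies in the
image of `ρ1` for all `i ≥ b`. -/
theorem exists_bound_T_neg_smul_mem_range (S : Finset E0) :
    ∃ b : ℕ, ∀ e ∈ S, ∀ i : ℕ, b ≤ i → ∃ y : E1, (T (-(i : ℤ)) : A[T;T⁻¹]) • g.ρ0 e = g.ρ1 y := by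
  classical
  choose n x hx using fun e : E0 => g.surj1 (g.ρ0 e)
  refine ⟨S.sup n, fun e he i hi => ?_⟩
  have hne : n e ≤ i := le_trans (Finset.le_sup he) hi
  refine ⟨(X : A[X]) ^ (i - n e) • x e, ?_⟩
  rw [g.ρ1_X_pow_smul, ← hx e, T_smul_T_smul]
  congr 2
  push_cast [Nat.cast_sub hne]
  ring

/-- Symmetric version: for a finite subset of `E1` there is a uniform bound `b` such that
`T^i • ρ1 f` lies in the image of `ρ0` for all `i ≥ b`. -/
theorem exists_bound_T_smul_mem_range (S : Finset E1) :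
    ∃ b : ℕ, ∀ f ∈ S, ∀ i : ℕ, b ≤ i → ∃ y : E0, (T (i : ℤ) : A[T;T⁻¹]) • g.ρ1 f = g.ρ0 y := by
  classical
  choose n x hx using fun f : E1 => g.surj0 (g.ρ1 f)
  refine ⟨S.sup n, fun f hf i hi => ?_⟩
  have hne : n f ≤ i := le_trans (Finset.le_sup hf) hi
  refine ⟨(X : A[X]) ^ (i - n f) • x f, ?_⟩
  rw [g.ρ0_X_pow_smul, ← hx f, T_smul_T_smul]
  congr 2
  push_cast [Nat.cast_sub hne]
  ring

/-- If `E0` is a finite `A[X]`-module then `E01 = ρ0 E0 + ρ1 E1 + V` for a finitely generated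
`A`-submodule `V`. -/
theorem exists_fg_sup_eq_top [Module.Finite A[X] E0] :
    ∃ V : Submodule A E01, V.FG ∧ g.im ⊔ V = ⊤ := by
  classical
  obtain ⟨S, hS⟩ := (Module.finite_def (R := A[X]) (M := E0)).1 inferInstance
  obtain ⟨b, hb⟩ := g.exists_bound_T_neg_smul_mem_range S
  let F : Finset E01 := (S ×ˢ Finset.range b).image
    (fun p => (T (-(p.2 : ℤ)) : A[T;T⁻¹]) • g.ρ0 p.1)
  refine ⟨Submodule.span A (F : Set E01), ⟨F, rfl⟩, ?_⟩
  apply g.eq_top_of_forall_T_smul_mem _ (S : Set E0) hS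
  intro e he k
  rcases le_or_gt 0 k with hk | hk
  · obtain ⟨n, rfl⟩ := Int.eq_ofNat_of_zero_le hk
    exact Submodule.mem_sup_left (g.T_smul_ρ0_mem_im n e)
  · obtain ⟨i, rfl⟩ : ∃ i : ℕ, k = -(i : ℤ) := ⟨k.natAbs, by omega⟩
    rcases lt_or_ge i b with hi | hi
    · apply Submodule.mem_sup_right
      apply Submodule.subset_span
      simp only [F, Finset.coe_image, Set.mem_image, Finset.mem_coe, Finset.mem_product,
        Finset.mem_range]
      exact ⟨(e, i), ⟨he, hi⟩, rfl⟩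
    · obtain ⟨y, hy⟩ := hb e he i hi
      rw [hy]
      exact Submodule.mem_sup_left (g.ρ1_mem_im y)

/-- `H^1` is a finite `A`-module as soon as `E0` is a finite `A[X]`-module. -/
theorem finite_H1 [Module.Finite A[X] E0] : Module.Finite A g.H1 := by
  obtain ⟨V, hV, hsup⟩ := g.exists_fg_sup_eq_top
  have hsurj : Function.Surjective ((g.im.mkQ).comp V.subtype) := by
    intro q
    obtain ⟨z, rfl⟩ := g.im.mkQ_surjective q
    have hz : z ∈ g.im ⊔ V := hsup ▸ Submodule.mem_top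
    obtain ⟨w, hw, v, hv, rfl⟩ := Submodule.mem_sup.1 hz
    refine ⟨⟨v, hv⟩, ?_⟩
    simp only [LinearMap.coe_comp, Submodule.coe_subtype, Function.comp_apply,
      Submodule.mkQ_apply, map_add]
    rw [(Submodule.Quotient.mk_eq_zero _).2 hw, zero_add]
  have : Module.Finite A V := Module.Finite.iff_fg.2 hV
  exact Module.Finite.of_surjective _ hsurj

/-- `H^1 (E(m)) = 0` for all sufficiently large twists, if `E0` is a finite `A[X]`-module. -/
theorem exists_twist_im_eq_top [Module.Finite A[X] E0] :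
    ∃ m₀ : ℕ, ∀ m : ℤ, (m₀ : ℤ) ≤ m → (g.twist m).im = ⊤ := by
  classical
  obtain ⟨S, hS⟩ := (Module.finite_def (R := A[X]) (M := E0)).1 inferInstance
  obtain ⟨b, hb⟩ := g.exists_bound_T_neg_smul_mem_range S
  refine ⟨b, fun m hm => ?_⟩
  apply (g.twist m).eq_top_of_forall_T_smul_mem _ (S : Set E0) hS
  intro e he k
  rcases le_or_gt 0 k with hk | hk
  · obtain ⟨n, rfl⟩ := Int.eq_ofNat_of_zero_le hk
    exact (g.twist m).T_smul_ρ0_mem_im n e
  · -- `T^k ρ0 e = T^m (T^{k-m} ρ0 e)` and `m - k ≥ b`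
    obtain ⟨i, hi⟩ : ∃ i : ℕ, (i : ℤ) = m - k := ⟨(m - k).toNat, by omega⟩
    have hbi : b ≤ i := by omega
    obtain ⟨y, hy⟩ := hb e he i hbi
    have : (T k : A[T;T⁻¹]) • (g.twist m).ρ0 e = (g.twist m).ρ1 y := by
      rw [twist_ρ1_apply, ← hy, T_smul_T_smul, twist_ρ0]
      congr 2
      omega
    rw [this]
    exact (g.twist m).ρ1_mem_im y

end AModule

end Glue

end Fermat.Agent.Jac.P1Coh.Basic

end
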