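import Fermat.Agent.Jac.P1Coh.Basic

/-!
# Global generation of large twists (programme JAC, brick A1)

If `E0` and `E1` are finite over `A[X]`, then for all `m ≥ m₀` there is a finite set of global
sections of `E(m)` whose first components generate `E0` and whose second components generate `E1`.
-/

set_option linter.unusedSectionVars false

noncomputable section

namespace Fermat.Agent.Jac.P1Coh.GlobalGen

open Polynomial LaurentPolynomial
open Fermat.Agent.Jac.P1Coh.Basic

universe u v₀ v₁ v₂

variable {A : Type u} [CommRing A]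
variable {E0 : Type v₀} {E1 : Type v₁} {E01 : Type v₂}
variable [AddCommGroup E0] [Module A[X] E0] [AddCommGroup E1] [Module A[X] E1]
variable [AddCommGroup E01] [Module A[T;T⁻¹] E01]
variable [Module A E0] [IsScalarTower A A[X] E0] [Module A E1] [IsScalarTower A A[X] E1]
variable [Module A E01] [IsScalarTower A A[T;T⁻¹] E01]

variable (g : Glue A E0 E1 E01)

/-- A glue datum is *globally generated* by a finite set `F` of global sections if the first
components generate `E0` and the second components generate `E1` over `A[X]`. -/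
def IsGenBy (F : Finset g.H0) : Prop :=
  Submodule.span A[X] ((fun p : g.H0 => p.1.1) '' (F : Set g.H0)) = ⊤ ∧
  Submodule.span A[X] ((fun p : g.H0 => p.1.2) '' (F : Set g.H0)) = ⊤

/-- Large twists are globally generated. -/
theorem exists_isGenBy_twist [Module.Finite A[X] E0] [Module.Finite A[X] E1] :
    ∃ m₀ : ℕ, ∀ m : ℕ, m₀ ≤ m → ∃ F : Finset (g.twist m).H0, IsGenBy (g.twist m) F := by
  classical
  obtain ⟨S0, hS0⟩ := (Module.finite_def (R := A[X]) (M := E0)).1 inferInstance
  obtain ⟨S1, hS1⟩ := (Module.finite_def (R := A[X]) (M := E1)).1 inferInstance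
  obtain ⟨b0, hb0⟩ := g.exists_bound_T_neg_smul_mem_range S0
  obtain ⟨b1, hb1⟩ := g.exists_bound_T_smul_mem_range S1
  refine ⟨max b0 b1, fun m hm => ?_⟩
  have hm0 : b0 ≤ m := le_trans (le_max_left _ _) hm
  have hm1 : b1 ≤ m := le_trans (le_max_right _ _) hm
  -- sections extending the generators of `E0`
  have h0 : ∀ e : E0, e ∈ S0 → ∃ p : (g.twist m).H0, p.1.1 = e := by
    intro e he
    obtain ⟨y, hy⟩ := hb0 e he m hm0
    refine ⟨⟨(e, y), ?_⟩, rfl⟩
    rw [Glue.mem_H0]
    simp only [Glue.twist_ρ0, Glue.twist_ρ1_apply, ← hy, Glue.T_smul_T_neg_smul]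
  have h1 : ∀ f : E1, f ∈ S1 → ∃ p : (g.twist m).H0, p.1.2 = f := by
    intro f hf
    obtain ⟨y, hy⟩ := hb1 f hf m hm1
    refine ⟨⟨(y, f), ?_⟩, rfl⟩
    rw [Glue.mem_H0]
    simp only [Glue.twist_ρ0, Glue.twist_ρ1_apply, hy]
  choose! s0 hs0 using h0
  choose! s1 hs1 using h1
  refine ⟨S0.image s0 ∪ S1.image s1, ?_, ?_⟩
  · rw [eq_top_iff, ← hS0, Submodule.span_le]
    intro e he
    apply Submodule.subset_span
    refine ⟨s0 e, ?_, hs0 e he⟩
    simp only [Finset.coe_union, Finset.coe_image, Set.mem_union, Set.mem_image, Finset.mem_coe]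
    exact Or.inl ⟨e, he, rfl⟩
  · rw [eq_top_iff, ← hS1, Submodule.span_le]
    intro f hf
    apply Submodule.subset_span
    refine ⟨s1 f, ?_, hs1 f hf⟩
    simp only [Finset.coe_union, Finset.coe_image, Set.mem_union, Set.mem_image, Finset.mem_coe]
    exact Or.inr ⟨f, hf, rfl⟩

end Fermat.Agent.Jac.P1Coh.GlobalGen

end
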