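import Fermat.Agent.Jac.P1Coh.Basic

/-!
# The standard (trivial) bundle `O^ι` on `P^1_A` (programme JAC, brick A1)

`E0 = E1 = ι → A[X]`, `E01 = ι → A[T;T⁻¹]`, glued by `toLaurent` resp. `invert ∘ toLaurent`.
We show that `H0 (O^ι (c))` is a finite free `A`-module for `c : ℕ` (`ι` finite): it is linearly
equivalent to `ι → Fin (c+1) → A`.
-/

set_option linter.unusedSectionVars false

noncomputable section

namespace Fermat.Agent.Jac.P1Coh.Std

open Polynomial LaurentPolynomial
open Fermat.Agent.Jac.P1Coh.Basic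

universe u w

variable (A : Type u) [CommRing A] (ι : Type w) [Finite ι]

lemma exists_T_pow_pi (z : ι → A[T;T⁻¹]) :
    ∃ (n : ℕ) (a : ι → A[X]), ∀ i, toLaurent (a i) = z i * T (n : ℤ) := by
  classical
  have := Fintype.ofFinite ι
  choose n a ha using fun i => LaurentPolynomial.exists_T_pow (z i)
  refine ⟨Finset.univ.sup n, fun i => (X : A[X]) ^ (Finset.univ.sup n - n i) * a i, fun i => ?_⟩
  have hle : n i ≤ Finset.univ.sup n := Finset.le_sup (Finset.mem_univ i)
  rw [map_mul, toLaurent_X_pow, ha i, mul_comm, mul_assoc, ← T_add]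
  congr 2
  push_cast [Nat.cast_sub hle]
  ring

/-- The standard glue datum `O^ι`. -/
def std : Glue A (ι → A[X]) (ι → A[X]) (ι → A[T;T⁻¹]) where
  ρ0 :=
    { toFun := fun a i => toLaurent (a i)
      map_zero' := by ext i; simp
      map_add' := fun a b => by ext i; simp }
  ρ1 :=
    { toFun := fun b i => invert (toLaurent (b i))
      map_zero' := by ext i; simp
      map_add' := fun a b => by ext i; simp }
  map_smul0 p a := by
    ext i
    simp [Pi.smul_apply]
  map_smul1 p a := by
    ext i
    simp [Pi.smul_apply]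
  inj0 := by
    intro a b h
    ext1 i
    exact toLaurent_injective (congrFun h i)
  inj1 := by
    intro a b h
    ext1 i
    exact toLaurent_injective (invert.injective (congrFun h i))
  surj0 z := by
    obtain ⟨n, a, ha⟩ := exists_T_pow_pi A ι z
    refine ⟨n, a, ?_⟩
    ext1 i
    simp only [Pi.smul_apply, smul_eq_mul, AddMonoidHom.coe_mk, ZeroHom.coe_mk, ha i, mul_comm]
  surj1 z := by
    obtain ⟨n, a, ha⟩ := exists_T_pow_pi A ι (fun i => invert (z i))
    refine ⟨n, a, ?_⟩
    ext1 i
    have h1 : invert (toLaurent (a i)) = z i * T (-(n : ℤ)) := by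
      rw [ha i, map_mul, invert_T, involutive_invert (z i)]
    simp only [Pi.smul_apply, smul_eq_mul, AddMonoidHom.coe_mk, ZeroHom.coe_mk]
    rw [h1, mul_comm]

@[simp] lemma std_ρ0_apply (a : ι → A[X]) (i : ι) : (std A ι).ρ0 a i = toLaurent (a i) := rfl

@[simp] lemma std_ρ1_apply (b : ι → A[X]) (i : ι) :
    (std A ι).ρ1 b i = invert (toLaurent (b i)) := rfl

end Fermat.Agent.Jac.P1Coh.Std

end
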