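import Fermat.Agent.Jac.P1Coh.Basic

/-!
# The exact sequence relating `E` and `E(m)` (programme JAC, brick A1)

For a glue datum `g` and `m : ℕ` we construct the `A`-linear maps
`H0(E) → H0(E(m))`, `(x0, x1) ↦ (x0, X^m • x1)` and
`H0(E(m)) → Q_m := E1 ⧸ X^m E1`, `(x0, x1) ↦ [x1]`, prove injectivity of the first, exactness in the
middle, and surjectivity of the second when `H1(E) = 0`.
-/

set_option linter.unusedSectionVars false

noncomputable section

namespace Fermat.Agent.Jac.P1Coh.Twist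

open Polynomial LaurentPolynomial
open Fermat.Agent.Jac.P1Coh.Basic

universe u v₀ v₁ v₂

variable {A : Type u} [CommRing A]
variable {E0 : Type v₀} {E1 : Type v₁} {E01 : Type v₂}
variable [AddCommGroup E0] [Module A[X] E0] [AddCommGroup E1] [Module A[X] E1]
variable [AddCommGroup E01] [Module A[T;T⁻¹] E01]
variable [Module A E0] [IsScalarTower A A[X] E0] [Module A E1] [IsScalarTower A A[X] E1]
variable [Module A E01] [IsScalarTower A A[T;T⁻¹] E01]

variable (A E1) in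
/-- The `A[X]`-submodule `X^m E1` of `E1`. -/
def powSub (m : ℕ) : Submodule A[X] E1 :=
  (Ideal.span {(X : A[X]) ^ m}) • (⊤ : Submodule A[X] E1)

lemma mem_powSub {m : ℕ} {y : E1} : y ∈ powSub A E1 m ↔ ∃ x : E1, y = (X : A[X]) ^ m • x := by
  rw [powSub, Submodule.ideal_span_singleton_smul, Submodule.mem_smul_pointwise_iff_exists]
  constructor
  · rintro ⟨x, -, rfl⟩; exact ⟨x, rfl⟩
  · rintro ⟨x, rfl⟩; exact ⟨x, Submodule.mem_top, rfl⟩

variable (A E1) in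
/-- The fibre at infinity of order `m`: `Q_m = E1 ⧸ X^m E1`. -/
abbrev Q (m : ℕ) : Type v₁ := E1 ⧸ powSub A E1 m

variable (g : Glue A E0 E1 E01)

/-- The map `H0(E) → H0(E(m))`. -/
def toTwist (m : ℕ) : g.H0 →ₗ[A] (g.twist m).H0 where
  toFun p := ⟨(p.1.1, (X : A[X]) ^ m • p.1.2), by
    have hp := (g.mem_H0 p.1).1 p.2
    rw [Glue.mem_H0]
    simp only [Glue.twist_ρ0, Glue.twist_ρ1_apply, g.ρ1_X_pow_smul, Glue.T_smul_T_neg_smul]
    exact hp⟩
  map_add' p q := by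
    ext
    · simp
    · simp [smul_add]
  map_smul' a p := by
    apply Subtype.ext
    apply Prod.ext
    · rfl
    · show (X : A[X]) ^ m • (a • p.1.2) = a • ((X : A[X]) ^ m • p.1.2)
      rw [smul_comm]

@[simp] lemma toTwist_apply_fst (m : ℕ) (p : g.H0) : ((toTwist g m p : (g.twist m).H0) : E0 × E1).1 = p.1.1 := rfl

@[simp] lemma toTwist_apply_snd (m : ℕ) (p : g.H0) :
    ((toTwist g m p : (g.twist m).H0) : E0 × E1).2 = (X : A[X]) ^ m • p.1.2 := rfl

lemma toTwist_injective (m : ℕ) : Function.Injective (toTwist g m) := by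
  intro p q h
  have h1 : p.1.1 = q.1.1 := congrArg (fun r : (g.twist m).H0 => (r : E0 × E1).1) h
  have hp := (g.mem_H0 p.1).1 p.2
  have hq := (g.mem_H0 q.1).1 q.2
  have h2 : p.1.2 = q.1.2 := g.inj1 (by rw [← hp, ← hq, h1])
  exact Subtype.ext (Prod.ext h1 h2)

/-- The map `H0(E(m)) → Q_m`, `(x0, x1) ↦ [x1]`. -/
def toQ (m : ℕ) : (g.twist m).H0 →ₗ[A] Q A E1 m :=
  ((powSub A E1 m).mkQ.restrictScalars A).comp
    ((LinearMap.snd A E0 E1).comp (g.twist m).H0.subtype)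

@[simp] lemma toQ_apply (m : ℕ) (p : (g.twist m).H0) :
    toQ g m p = Submodule.Quotient.mk p.1.2 := rfl

/-- Exactness at `H0(E(m))`. -/
lemma toQ_eq_zero_iff (m : ℕ) (p : (g.twist m).H0) :
    toQ g m p = 0 ↔ ∃ q : g.H0, toTwist g m q = p := by
  rw [toQ_apply, Submodule.Quotient.mk_eq_zero, mem_powSub]
  constructor
  · rintro ⟨x, hx⟩
    have hp := ((g.twist m).mem_H0 p.1).1 p.2
    refine ⟨⟨(p.1.1, x), ?_⟩, ?_⟩
    · rw [Glue.mem_H0]
      simp only [Glue.twist_ρ0, Glue.twist_ρ1_apply] at hp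
      rw [hp, hx, g.ρ1_X_pow_smul, Glue.T_smul_T_neg_smul]
    · apply Subtype.ext
      apply Prod.ext
      · rfl
      · simp [hx]
  · rintro ⟨q, rfl⟩
    exact ⟨q.1.2, rfl⟩

lemma range_toTwist (m : ℕ) : LinearMap.range (toTwist g m) = LinearMap.ker (toQ g m) := by
  ext p
  rw [LinearMap.mem_range, LinearMap.mem_ker, toQ_eq_zero_iff]

/-- If `H1(E) = 0` then `H0(E(m)) → Q_m` is surjective. -/
lemma toQ_surjective (m : ℕ) (h : g.im = ⊤) : Function.Surjective (toQ g m) := by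
  intro q
  obtain ⟨x1, rfl⟩ := Submodule.Quotient.mk_surjective _ q
  -- `T^m • ρ1 x1 = ρ0 y0 + ρ1 y1`
  have hz : (T (m : ℤ) : A[T;T⁻¹]) • g.ρ1 x1 ∈ g.im := h ▸ Submodule.mem_top
  obtain ⟨w0, ⟨y0, rfl⟩, w1, ⟨y1, rfl⟩, hsum⟩ := Submodule.mem_sup.1 hz
  simp only [Glue.ρ0A_apply, Glue.ρ1A_apply] at hsum
  refine ⟨⟨(y0, x1 - (X : A[X]) ^ m • y1), ?_⟩, ?_⟩
  · rw [Glue.mem_H0]
    simp only [Glue.twist_ρ0, Glue.twist_ρ1_apply, map_sub, g.ρ1_X_pow_smul,
      Glue.T_smul_T_neg_smul]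
    rw [← hsum]; abel
  · rw [toQ_apply]
    simp only [Submodule.Quotient.mk_sub]
    rw [(Submodule.Quotient.mk_eq_zero _).2 (mem_powSub.2 ⟨y1, rfl⟩), sub_zero]

end Fermat.Agent.Jac.P1Coh.Twist

end
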